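/-
Fermat/Agent/Jac/FiniteToLine86/Basic.lean  (helper86)

Programme JAC (S25), brick C2-beta "FiniteToLine": for a `k`-scheme `c : C ⟶ Spec k`, an open
`U ⊆ C` and a section `t ∈ Γ(C, U)` we define the `k`-morphism `lineMap c U t : U ⟶ Spec k[X]`
(`X ↦ t`) and record its formal properties (it is a `k`-morphism, locally of finite type,
separated, quasi-compact under the evident hypotheses on `c`).
-/
import Mathlib

set_option autoImplicit false

universe u

open AlgebraicGeometry CategoryTheory Polynomial

namespace Fermat.Agent.Jac.FiniteToLine86.Basic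

variable {k : Type u} [Field k] {C : Scheme.{u}} (c : C ⟶ Spec (.of k)) (U : C.Opens)

/-- The structure ring homomorphism `k → Γ(C, U)` of a `k`-scheme `c : C ⟶ Spec k`. -/
noncomputable def kToU : k →+* Γ(C, U) :=
  ((Scheme.ΓSpecIso (.of k)).inv ≫ c.appTop ≫ C.presheaf.map (homOfLE le_top).op).hom

/-- `U ⟶ C ⟶ Spec k` is `U ⟶ Spec Γ(C, U) ⟶ Spec k`. -/
lemma ι_comp (c : C ⟶ Spec (.of k)) (U : C.Opens) :
    U.ι ≫ c = U.toSpecΓ ≫ Spec.map (CommRingCat.ofHom (kToU c U)) := by
  have h1 : c = C.toSpecΓ ≫ Spec.map c.appTop ≫ Spec.map (Scheme.ΓSpecIso (.of k)).inv := by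
    rw [← Scheme.toSpecΓ_naturality_assoc, toSpecΓ_SpecMap_ΓSpecIso_inv, Category.comp_id]
  conv_lhs => rw [h1]
  rw [← Scheme.Opens.toSpecΓ_SpecMap_presheaf_map_top_assoc]
  simp only [kToU, CommRingCat.ofHom_hom, Spec.map_comp, Category.assoc]

variable (t : Γ(C, U))

/-- The evaluation homomorphism `k[X] → Γ(C, U)`, `X ↦ t`. -/
noncomputable def evalHom : k[X] →+* Γ(C, U) := Polynomial.eval₂RingHom (kToU c U) t

@[simp] lemma evalHom_X : evalHom c U t X = t := by simp [evalHom]

@[simp] lemma evalHom_C (a : k) : evalHom c U t (Polynomial.C a) = kToU c U a := by simp [evalHom]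

lemma evalHom_comp_C : (evalHom c U t).comp (Polynomial.C : k →+* k[X]) = kToU c U := by
  ext a; simp

/-- The morphism `U ⟶ 𝔸¹_k = Spec k[X]` defined by a section `t ∈ Γ(C, U)`. -/
noncomputable def lineMap : U.toScheme ⟶ Spec (.of k[X]) :=
  U.toSpecΓ ≫ Spec.map (CommRingCat.ofHom (evalHom c U t))

/-- `lineMap` is a morphism of `k`-schemes. -/
lemma lineMap_comp :
    lineMap c U t ≫ Spec.map (CommRingCat.ofHom (Polynomial.C : k →+* k[X])) = U.ι ≫ c := by
  rw [ι_comp, lineMap, Category.assoc, ← Spec.map_comp, ← CommRingCat.ofHom_comp, evalHom_comp_C]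

lemma lineMap_locallyOfFiniteType [LocallyOfFiniteType c] :
    LocallyOfFiniteType (lineMap c U t) := by
  have : LocallyOfFiniteType
      (lineMap c U t ≫ Spec.map (CommRingCat.ofHom (Polynomial.C : k →+* k[X]))) := by
    rw [lineMap_comp]; infer_instance
  exact locallyOfFiniteType_of_comp _ (Spec.map (CommRingCat.ofHom (Polynomial.C : k →+* k[X])))

lemma lineMap_isSeparated [IsSeparated c] : IsSeparated (lineMap c U t) := by
  have : IsSeparated
      (lineMap c U t ≫ Spec.map (CommRingCat.ofHom (Polynomial.C : k →+* k[X]))) := by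
    rw [lineMap_comp]; infer_instance
  exact IsSeparated.of_comp _ (Spec.map (CommRingCat.ofHom (Polynomial.C : k →+* k[X])))

/-- A proper `k`-scheme is a noetherian topological space. -/
lemma noetherianSpace_of_proper [IsProper c] : TopologicalSpace.NoetherianSpace C := by
  have h1 : IsLocallyNoetherian C := LocallyOfFiniteType.isLocallyNoetherian c
  have h2 : CompactSpace C := QuasiCompact.compactSpace_of_compactSpace c
  have : IsNoetherian C := { }
  infer_instance

lemma compactSpace_opens [IsProper c] : CompactSpace U := by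
  have := noetherianSpace_of_proper c
  exact isCompact_iff_compactSpace.mp (TopologicalSpace.NoetherianSpace.isCompact _)

lemma lineMap_quasiCompact [IsProper c] : QuasiCompact (lineMap c U t) := by
  have := compactSpace_opens c U
  infer_instance

end Fermat.Agent.Jac.FiniteToLine86.Basic
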