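/-
Fermat/Agent/Jac/FiniteToLine86/QuasiFinite.lean  (helper86)

Programme JAC (S25), brick C2-beta: the morphism `lineMap c U t : U ⟶ Spec k[X]` has finite
fibres, hence is locally quasi-finite, when `C` is an integral proper `k`-scheme all of whose
non-generic points are closed (a curve), `k` is algebraically closed and `t` is not constant.
-/
import Fermat.Agent.Jac.FiniteToLine86.Basic

set_option autoImplicit false

universe u

open AlgebraicGeometry CategoryTheory Polynomial IsLocalRing TopologicalSpace
open Fermat.Agent.Jac.FiniteToLine86.Basic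

namespace Fermat.Agent.Jac.FiniteToLine86.QuasiFinite

/-- In a noetherian sober space in which every point different from `η` is closed, every closed
subset not containing `η` is finite. -/
lemma finite_of_isClosed {X : Type*} [TopologicalSpace X] [NoetherianSpace X] [QuasiSober X]
    (η : X) (h1 : ∀ x : X, x ≠ η → IsClosed ({x} : Set X))
    (Z : Set X) (hZ : IsClosed Z) (hη : η ∉ Z) : Z.Finite := by
  obtain ⟨S, hS, hZS⟩ := NoetherianSpace.exists_finset_irreducible (⟨Z, hZ⟩ : Closeds X)
  have hcoe : Z = ⋃ T ∈ S, (T : Set X) := by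
    have := congrArg (fun s : Closeds X => (s : Set X)) hZS
    simpa [Closeds.coe_finset_sup, Finset.sup_set_eq_biUnion] using this
  rw [hcoe]
  refine Set.Finite.biUnion S.finite_toSet ?_
  intro T hT
  obtain ⟨z, hz⟩ := QuasiSober.sober (hS ⟨T, hT⟩) T.isClosed
  have hzT : z ∈ (T : Set X) := hz.mem
  have hzη : z ≠ η := by
    rintro rfl
    exact hη (hcoe ▸ Set.mem_biUnion hT hzT)
  have : (T : Set X) = {z} := by rw [← hz.def, (h1 z hzη).closure_eq]
  rw [this]; exact Set.finite_singleton z

variable {k : Type u} [Field k] {C : Scheme.{u}} (c : C ⟶ Spec (.of k)) (U : C.Opens)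
  (t : Γ(C, U))

set_option backward.isDefEq.respectTransparency.types false in
lemma lineMap_preimage_basicOpen (g : k[X]) :
    lineMap c U t ⁻¹ᵁ (PrimeSpectrum.basicOpen g) = U.ι ⁻¹ᵁ C.basicOpen (evalHom c U t g) := by
  unfold lineMap
  rw [Scheme.Hom.comp_preimage, SpecMap_preimage_basicOpen,
    Scheme.Opens.toSpecΓ_preimage_basicOpen]
  rfl

set_option backward.isDefEq.respectTransparency.types false in
lemma not_mem_basicOpen_of_mem (u : U.toScheme) (g : k[X])
    (hg : g ∈ (lineMap c U t u).asIdeal) : u.1 ∉ C.basicOpen (evalHom c U t g) := by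
  intro h
  have h' : u ∈ lineMap c U t ⁻¹ᵁ (PrimeSpectrum.basicOpen g) := by
    rw [lineMap_preimage_basicOpen]; exact h
  exact h' hg

section integral

variable [IsIntegral C] [Nonempty U]

lemma genericPoint_mem : genericPoint C ∈ U :=
  ((genericPoint_spec C).mem_open_set_iff U.isOpen).mpr (by simpa using ‹Nonempty U›)

/-- The generic point lies in the basic open of every nonzero section. -/
lemma genericPoint_mem_basicOpen (h : Γ(C, U)) (hh : h ≠ 0) :
    genericPoint C ∈ C.basicOpen h := by
  rw [Scheme.mem_basicOpen C h (genericPoint C) (genericPoint_mem U)]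
  have : C.presheaf.germ U (genericPoint C) (genericPoint_mem U) h ≠ 0 := by
    intro h0
    apply hh
    apply germ_injective_of_isIntegral C (genericPoint C) (genericPoint_mem U)
    rw [h0, map_zero]
  exact (isUnit_iff_ne_zero (G₀ := C.functionField)).mpr this

include c in
/-- The zero locus of a nonzero section on `U` is finite. -/
lemma finite_zeroLocus [IsProper c] (h1 : ∀ x : C, x ≠ genericPoint C → IsClosed ({x} : Set C))
    (h : Γ(C, U)) (hh : h ≠ 0) : {u : U.toScheme | u.1 ∉ C.basicOpen h}.Finite := by
  have := noetherianSpace_of_proper c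
  have hfin : ((C.basicOpen h : Set C)ᶜ).Finite :=
    finite_of_isClosed (genericPoint C) h1 _ (C.basicOpen h).isOpen.isClosed_compl
      (fun hn => hn (genericPoint_mem_basicOpen U h hh))
  exact hfin.preimage (f := fun u : U.toScheme => u.1) Subtype.val_injective.injOn

variable [IsAlgClosed k]

/-- A non-constant section is transcendental over the algebraically closed field `k`. -/
lemma evalHom_ne_zero (hnc : ∀ a : k, t ≠ kToU c U a) (g : k[X]) (hg : g ≠ 0) :
    evalHom c U t g ≠ 0 := by
  intro h0
  rw [(IsAlgClosed.splits g).eq_prod_roots, map_mul, map_multiset_prod, evalHom_C] at h0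
  rcases mul_eq_zero.mp h0 with h | h
  · have : g.leadingCoeff = 0 := by
      by_contra hne
      have hu : IsUnit (kToU c U g.leadingCoeff) := (isUnit_iff_ne_zero.mpr hne).map _
      exact hu.ne_zero h
    exact hg (leadingCoeff_eq_zero.mp this)
  · rw [Multiset.prod_eq_zero_iff, Multiset.mem_map] at h
    obtain ⟨p, hp, hp0⟩ := h
    rw [Multiset.mem_map] at hp
    obtain ⟨a, -, rfl⟩ := hp
    rw [map_sub, evalHom_X, evalHom_C, sub_eq_zero] at hp0
    exact hnc a hp0

end integral

section fibres

variable [IsIntegral C] [Nonempty U] [IsProper c] [IsAlgClosed k]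

set_option backward.isDefEq.respectTransparency.types false in
/-- The fibres of `lineMap c U t` are finite. -/
theorem lineMap_finite_fibre (h1 : ∀ x : C, x ≠ genericPoint C → IsClosed ({x} : Set C))
    (hnc : ∀ a : k, t ≠ kToU c U a) (p : Spec (.of k[X])) :
    (lineMap c U t ⁻¹' {p}).Finite := by
  by_cases hp : ∃ g ∈ p.asIdeal, g ≠ 0
  · obtain ⟨g, hgp, hg0⟩ := hp
    refine (finite_zeroLocus c U h1 _ (evalHom_ne_zero c U t hnc g hg0)).subset ?_
    intro u hu
    have hu' : lineMap c U t u = p := hu
    exact not_mem_basicOpen_of_mem c U t u g (hu' ▸ hgp)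
  · -- `p` is the generic point of the line: only the generic point of `C` maps to it
    have hsub : lineMap c U t ⁻¹' {p} ⊆ {u : U.toScheme | u.1 = genericPoint C} := by
      intro u hu
      have hu' : lineMap c U t u = p := hu
      by_contra hne
      have hcl : IsClosed ({u.1} : Set C) := h1 u.1 hne
      have hclU : IsClosed ({u} : Set U.toScheme) := by
        have h2 : IsClosed ((fun v : U.toScheme => v.1) ⁻¹' {u.1}) :=
          hcl.preimage continuous_subtype_val
        have h3 : (fun v : U.toScheme => v.1) ⁻¹' {u.1} = {u} := by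
          ext v
          simp only [Set.mem_preimage, Set.mem_singleton_iff]
          exact Subtype.val_inj
        rwa [h3] at h2
      have := lineMap_locallyOfFiniteType c U t
      have hcp : lineMap c U t u ∈ closedPoints (Spec (.of k[X])) :=
        (lineMap c U t).closePoints_subset_preimage_closedPoints hclU
      rw [hu'] at hcp
      have hmax : p.asIdeal.IsMaximal :=
        (PrimeSpectrum.isClosed_singleton_iff_isMaximal p).mp hcp
      have hbot : p.asIdeal = ⊥ := by
        rw [eq_bot_iff]
        intro g hg
        by_contra hg0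
        exact hp ⟨g, hg, hg0⟩
      rw [hbot] at hmax
      exact Polynomial.not_isField k (Ring.isField_iff_maximal_bot.mpr hmax)
    refine Set.Finite.subset (Set.Subsingleton.finite ?_) hsub
    intro u hu v hv
    exact Subtype.ext (hu.trans hv.symm)

/-- `lineMap c U t` is locally quasi-finite. -/
theorem lineMap_locallyQuasiFinite
    (h1 : ∀ x : C, x ≠ genericPoint C → IsClosed ({x} : Set C))
    (hnc : ∀ a : k, t ≠ kToU c U a) : LocallyQuasiFinite (lineMap c U t) := by
  have := lineMap_locallyOfFiniteType c U t
  exact LocallyQuasiFinite.of_finite_preimage_singleton _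
    (lineMap_finite_fibre c U t h1 hnc)

end fibres

end Fermat.Agent.Jac.FiniteToLine86.QuasiFinite
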