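/-
Fermat/Agent/Jac/FiniteToLine86/Finite.lean  (helper86)

Programme JAC (S25), brick C2-beta, main theorem: for a proper integral curve `c : C ⟶ Spec k` over
an algebraically closed field whose local rings are valuation rings, and a non-constant section
`t ∈ Γ(C, U)` whose full domain of definition is `U`, the morphism `lineMap c U t : U ⟶ Spec k[X]`
is finite.  Consequently `U` is affine and `Γ(C, U)` is a finite free module over `k[X]`
(`X` acting as `t`), in the `Module.AEval` form used by `Fermat.Agent.Jac.Core`.
-/
import Fermat.Agent.Jac.FiniteToLine86.Valuative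
import Fermat.Agent.Jac.FiniteToLine86.QuasiFinite

set_option autoImplicit false
set_option linter.style.haveILetI false

universe u

open AlgebraicGeometry CategoryTheory Polynomial
open Fermat.Agent.Jac.FiniteToLine86.Basic
open Fermat.Agent.Jac.FiniteToLine86.Valuative
open Fermat.Agent.Jac.FiniteToLine86.QuasiFinite

namespace Fermat.Agent.Jac.FiniteToLine86.Finite

variable {k : Type u} [Field k] {C : Scheme.{u}} (c : C ⟶ Spec (.of k)) (U : C.Opens)
  (t : Γ(C, U))

/-- The `k`-algebra structure on `Γ(C, U)` of a `k`-scheme `c : C ⟶ Spec k` (not an instance). -/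
@[reducible] noncomputable def algebraU : Algebra k Γ(C, U) := (kToU c U).toAlgebra

/-- Global sections of `lineMap` are `evalHom` up to the canonical isomorphisms. -/
lemma lineMap_appTop :
    (lineMap c U t).appTop =
      (Scheme.ΓSpecIso (.of k[X])).hom ≫ CommRingCat.ofHom (evalHom c U t) ≫ U.topIso.inv := by
  unfold lineMap
  rw [Scheme.Hom.comp_appTop, Scheme.Opens.toSpecΓ_appTop, ← Category.assoc,
    Scheme.ΓSpecIso_naturality, Category.assoc]

/-- If `lineMap c U t` is a finite morphism then `evalHom c U t : k[X] → Γ(C, U)` is a finite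
ring homomorphism. -/
lemma evalHom_finite [IsFinite (lineMap c U t)] : (evalHom c U t).Finite := by
  have h := (lineMap c U t).finite_appTop
  have e : evalHom c U t =
      (U.topIso.hom.hom.comp (lineMap c U t).appTop.hom).comp
        (Scheme.ΓSpecIso (.of k[X])).inv.hom := by
    have : CommRingCat.ofHom (evalHom c U t) =
        (Scheme.ΓSpecIso (.of k[X])).inv ≫ (lineMap c U t).appTop ≫ U.topIso.hom := by
      rw [lineMap_appTop, Category.assoc, Category.assoc, Iso.inv_hom_id, Category.comp_id,
        Iso.inv_hom_id_assoc]
    exact congrArg CommRingCat.Hom.hom this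
  rw [e]
  refine RingHom.Finite.comp (RingHom.Finite.comp ?_ h) ?_
  · exact RingHom.Finite.of_surjective _
      (ConcreteCategory.bijective_of_isIso U.topIso.hom).surjective
  · exact RingHom.Finite.of_surjective _
      (ConcreteCategory.bijective_of_isIso (Scheme.ΓSpecIso (.of k[X])).inv).surjective

lemma aeval_eq_evalHom (p : k[X]) :
    letI := algebraU c U
    Polynomial.aeval t p = evalHom c U t p := by
  letI := algebraU c U
  rfl

/-- `Γ(C, U)` with the `k[X]`-module structure through `evalHom` is the `Module.AEval` module. -/
noncomputable def aevalEquiv :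
    letI := algebraU c U
    letI := (evalHom c U t).toAlgebra
    Γ(C, U) ≃ₗ[k[X]] Module.AEval k Γ(C, U) t :=
  letI := algebraU c U
  letI := (evalHom c U t).toAlgebra
  { (Module.AEval.of k Γ(C, U) t).toAddEquiv with
    map_smul' := fun p m => by
      have h := Module.AEval.of_aeval_smul (R := k) (M := Γ(C, U)) t p m
      rw [aeval_eq_evalHom] at h
      exact h }

section main

variable [IsAlgClosed k] [IsIntegral C] [Nonempty U] [IsProper c]

/-- **Finiteness theorem.**  `lineMap c U t : U ⟶ Spec k[X]` is a finite morphism. -/
theorem lineMap_isFinite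
    (hV : ∀ x : C, ValuationRing (C.presheaf.stalk x))
    (h1 : ∀ x : C, x ≠ genericPoint C → IsClosed ({x} : Set C))
    (hmax : IsMaxDomain U t) (hnc : ∀ a : k, t ≠ kToU c U a) :
    IsFinite (lineMap c U t) := by
  have := lineMap_isProper c U t hV hmax
  have := lineMap_locallyQuasiFinite c U t h1 hnc
  exact IsFinite.of_isProper_of_locallyQuasiFinite _

include c t in
/-- The full domain of definition of a non-constant rational function is affine. -/
theorem isAffineOpen_of_isMaxDomain
    (hV : ∀ x : C, ValuationRing (C.presheaf.stalk x))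
    (h1 : ∀ x : C, x ≠ genericPoint C → IsClosed ({x} : Set C))
    (hmax : IsMaxDomain U t) (hnc : ∀ a : k, t ≠ kToU c U a) :
    IsAffineOpen U := by
  have := lineMap_isFinite c U t hV h1 hmax hnc
  exact isAffine_of_isAffineHom (lineMap c U t)

omit [IsProper c] in
/-- `evalHom` is injective: a non-constant section is transcendental over `k`. -/
lemma evalHom_injective (hnc : ∀ a : k, t ≠ kToU c U a) :
    Function.Injective (evalHom c U t) := by
  rw [injective_iff_map_eq_zero]
  intro g hg
  by_contra h0
  exact evalHom_ne_zero c U t hnc g h0 hg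

/-- `Γ(C, U)` is a finite `k[X]`-module, `X` acting as `t`. -/
theorem finite_aeval
    (hV : ∀ x : C, ValuationRing (C.presheaf.stalk x))
    (h1 : ∀ x : C, x ≠ genericPoint C → IsClosed ({x} : Set C))
    (hmax : IsMaxDomain U t) (hnc : ∀ a : k, t ≠ kToU c U a) :
    letI := algebraU c U
    Module.Finite k[X] (Module.AEval k Γ(C, U) t) := by
  letI := algebraU c U
  letI := (evalHom c U t).toAlgebra
  have := lineMap_isFinite c U t hV h1 hmax hnc
  have hfin : Module.Finite k[X] Γ(C, U) := evalHom_finite c U t
  exact Module.Finite.equiv (aevalEquiv c U t)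

/-- `Γ(C, U)` is a free `k[X]`-module, `X` acting as `t`. -/
theorem free_aeval
    (hV : ∀ x : C, ValuationRing (C.presheaf.stalk x))
    (h1 : ∀ x : C, x ≠ genericPoint C → IsClosed ({x} : Set C))
    (hmax : IsMaxDomain U t) (hnc : ∀ a : k, t ≠ kToU c U a) :
    letI := algebraU c U
    Module.Free k[X] (Module.AEval k Γ(C, U) t) := by
  letI := algebraU c U
  letI := (evalHom c U t).toAlgebra
  have := lineMap_isFinite c U t hV h1 hmax hnc
  have hfin : Module.Finite k[X] Γ(C, U) := evalHom_finite c U t
  have htf : Module.IsTorsionFree k[X] Γ(C, U) :=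
    Module.isTorsionFree_iff_algebraMap_injective.mpr (evalHom_injective c U t hnc)
  have hfree : Module.Free k[X] Γ(C, U) := Module.free_of_finite_type_torsion_free'
  exact Module.Free.of_equiv (aevalEquiv c U t)

end main

end Fermat.Agent.Jac.FiniteToLine86.Finite
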