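/-
Fermat/Agent/Jac/FiniteToLine86/Inputs.lean  (helper86)

Programme JAC (S25), brick C2: the inputs of the finiteness theorem (`FiniteToLine86.Finite`) for a
smooth proper integral curve `c : C ⟶ Spec k` over an algebraically closed field, from brick C1
(`Fermat.Agent.Jac.CurveLocal`), in the vocabulary of `FiniteToLine80` (`dom f`, `sec f`):
* all local rings are valuation rings, non-generic points are closed;
* `Γ(C, ⊤) = k`;
* a rational function with a pole at a given rational point, base-point fields of `CurveCharts`;
* `sec f` is not constant when `f` has a pole.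
-/
import Fermat.Agent.Jac.FiniteToLine86.Finite
import Fermat.Agent.Jac.FiniteToLine80.Poles
import Fermat.Agent.Jac.CurveLocal.Points
import Fermat.Agent.Jac.CurveCharts

set_option autoImplicit false
set_option linter.unusedSectionVars false

universe u

open AlgebraicGeometry CategoryTheory Polynomial TopologicalSpace
open Fermat.Agent.Jac
open Fermat.Agent.Jac.FiniteToLine80
open Fermat.Agent.Jac.FiniteToLine86.Basic
open Fermat.Agent.Jac.FiniteToLine86.Valuative

namespace Fermat.Agent.Jac.FiniteToLine86.Inputs

variable {k : Type u} [Field k] [IsAlgClosed k] {C : Scheme.{u}} (c : C ⟶ Spec (.of k))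

/-! ### Local rings -/

/-- All local rings of a smooth integral curve are valuation rings. -/
theorem valuationRing_stalk [SmoothOfRelativeDimension 1 c] [IsIntegral C] (x : C) :
    ValuationRing (C.presheaf.stalk x) := by
  rcases CurveLocal.isClosed_singleton_or_eq_genericPoint c x with h | h
  · have := CurveLocal.isDiscreteValuationRing_stalk_of_isClosed c x h
    infer_instance
  · subst h
    exact (inferInstance : ValuationRing C.functionField)

/-- Non-generic points of a smooth integral curve are closed. -/
theorem isClosed_of_ne_genericPoint [SmoothOfRelativeDimension 1 c] [IsIntegral C] (x : C)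
    (hx : x ≠ genericPoint C) : IsClosed ({x} : Set C) :=
  (CurveLocal.isClosed_singleton_or_eq_genericPoint c x).resolve_right hx

/-! ### Global functions are constant -/

/-- Global functions on a proper integral scheme over an algebraically closed field are
constant. -/
theorem global_const [IsIntegral C] [UniversallyClosed c] :
    Function.Bijective (sectionsRingHom c (⊤ : C.Opens)) := by
  have hint : ((Scheme.ΓSpecIso (.of k)).inv ≫ c.appTop).hom.IsIntegral := by
    apply RingHom.isIntegral_respectsIso.2
      (e := (Scheme.ΓSpecIso (.of k)).symm.commRingCatIsoToRingEquiv)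
    exact isIntegral_appTop_of_universallyClosed c
  have hbij := IsAlgClosed.ringHom_bijective_of_isIntegral _ hint
  have hres : C.presheaf.map (homOfLE (le_top : (⊤ : C.Opens) ≤ ⊤)).op = 𝟙 _ := by
    rw [show homOfLE (le_top : (⊤ : C.Opens) ≤ ⊤) = 𝟙 _ from rfl, op_id, C.presheaf.map_id]
  have : sectionsRingHom c (⊤ : C.Opens) = ((Scheme.ΓSpecIso (.of k)).inv ≫ c.appTop).hom := by
    unfold sectionsRingHom
    rw [hres, Category.comp_id]
  rw [this]
  exact hbij

/-! ### A pole at a given closed point -/

/-- There is a rational function with a pole at a given closed point of a smooth curve. -/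
theorem exists_notMem_dom [SmoothOfRelativeDimension 1 c] [IsIntegral C] (x : C)
    (hx : IsClosed ({x} : Set C)) : ∃ f : C.functionField, x ∉ dom f := by
  have := CurveLocal.isDiscreteValuationRing_stalk_of_isClosed c x hx
  obtain ⟨ϖ, hϖ⟩ := IsDiscreteValuationRing.exists_irreducible (C.presheaf.stalk x)
  refine ⟨(algebraMap (C.presheaf.stalk x) C.functionField ϖ)⁻¹, ?_⟩
  rw [mem_dom_iff]
  rintro ⟨a, ha⟩
  have hinj := IsFractionRing.injective (C.presheaf.stalk x) C.functionField
  have h0 : algebraMap (C.presheaf.stalk x) C.functionField ϖ ≠ 0 := by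
    rw [Ne, map_eq_zero_iff _ hinj]
    exact hϖ.ne_zero
  have h1 : algebraMap (C.presheaf.stalk x) C.functionField (a * ϖ) = 1 := by
    rw [map_mul, ha, inv_mul_cancel₀ h0]
  have h2 : a * ϖ = 1 := hinj (by rw [h1, map_one])
  exact hϖ.not_isUnit (IsUnit.of_mul_eq_one_right a h2)

/-! ### `sec f` is not constant -/

section const

variable [IsIntegral C]

/-- The constant global function with value `a`. -/
noncomputable def constTop (a : k) : Γ(C, ⊤) := ((Scheme.ΓSpecIso (.of k)).inv ≫ c.appTop).hom a

lemma kToU_eq_res (U : C.Opens) (a : k) :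
    kToU c U a = C.presheaf.map (homOfLE (le_top : U ≤ ⊤)).op (constTop c a) := rfl

/-- The field homomorphism `k → K(C)`. -/
noncomputable def constFF : k →+* C.functionField :=
  (C.presheaf.germ ⊤ (genericPoint C) trivial).hom.comp
    ((Scheme.ΓSpecIso (.of k)).inv ≫ c.appTop).hom

lemma toFF_constTop (a : k) : toFF (⊤ : C.Opens) trivial (constTop c a) = constFF c a := rfl

/-- A constant rational function is regular everywhere. -/
lemma dom_constFF (a : k) : dom (constFF c a) = ⊤ :=
  top_le_iff.mp (le_dom_of_toFF_eq (f := constFF c a) trivial (constTop c a) (toFF_constTop c a))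

/-- If `sec f` is a constant then `f` is a constant rational function. -/
lemma eq_constFF_of_sec_eq (f : C.functionField) (a : k) (h : sec f = kToU c (dom f) a) :
    f = constFF c a := by
  rw [← toFF_sec f, h, kToU_eq_res, toFF_res, toFF_constTop]

/-- If `f` has a pole then `sec f` is not constant. -/
theorem sec_ne_const {f : C.functionField} {x : C} (hx : x ∉ dom f) (a : k) :
    sec f ≠ kToU c (dom f) a := by
  intro h
  apply hx
  rw [eq_constFF_of_sec_eq c f a h, dom_constFF]
  trivial

/-- If `f` has a pole then `sec f⁻¹` is not constant. -/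
theorem sec_inv_ne_const {f : C.functionField} {x : C} (hx : x ∉ dom f) (a : k) :
    sec f⁻¹ ≠ kToU c (dom f⁻¹) a := by
  intro h
  apply hx
  have h1 : f⁻¹ = constFF c a := eq_constFF_of_sec_eq c f⁻¹ a h
  have h2 : f = constFF c a⁻¹ := by
    rw [map_inv₀, ← h1, inv_inv]
  rw [h2, dom_constFF]
  trivial

/-- `dom f` is the full domain of definition of `sec f`. -/
theorem isMaxDomain_dom (f : C.functionField) :
    haveI : Nonempty (dom f) := ⟨⟨genericPoint C, genericPoint_mem_dom f⟩⟩
    IsMaxDomain (dom f) (sec f) := by
  intro x hx
  rw [mem_dom_iff]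
  obtain ⟨a, ha⟩ := hx
  refine ⟨a, ha.trans ?_⟩
  exact toFF_sec f

end const

/-! ### The base point -/

section base

variable (ε : NeronModelInfra.SchemeHomOver (𝟙 (Spec (CommRingCat.of k))) c)

omit [IsAlgClosed k] in
/-- An open of `C` containing the base point pulls back to the whole of `Spec k`. -/
theorem base_mem_of_mem {U1 : C.Opens} (z : Spec (CommRingCat.of k)) (h : ε.1 z ∈ U1) :
    ε.1 ⁻¹ᵁ U1 = ⊤ :=
  CurveLocal.opens_spec_field_eq_top _ z h

omit [IsAlgClosed k] in
/-- A section not invertible at the base point pulls back to zero on `Spec k`. -/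
theorem s_base_of_notMem_basicOpen {U1 : C.Opens} (s : Γ(C, U1)) (z : Spec (CommRingCat.of k))
    (h : ε.1 z ∉ C.basicOpen s) : (ε.1.app U1).hom s = 0 := by
  rw [← basicOpen_eq_bot_iff, ← Scheme.preimage_basicOpen]
  ext y
  simp only [Opens.coe_bot, Set.mem_empty_iff_false, iff_false]
  intro hy
  have : y = z := Subsingleton.elim _ _
  subst this
  exact h hy

end base

end Fermat.Agent.Jac.FiniteToLine86.Inputs
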