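/-
Fermat/Agent/Jac/FiniteToLine86/Valuative.lean  (helper86)

Programme JAC (S25), brick C2-beta: the morphism `lineMap c U t : U ⟶ Spec k[X]` satisfies the
existence part of the valuative criterion when `c : C ⟶ Spec k` is universally closed, all local
rings of the integral scheme `C` are valuation rings, and `U` is the full domain of definition of
the rational function `t`.
-/
import Fermat.Agent.Jac.FiniteToLine86.Basic

set_option autoImplicit false

universe u

open AlgebraicGeometry CategoryTheory Polynomial IsLocalRing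
open Fermat.Agent.Jac.FiniteToLine86.Basic

namespace Fermat.Agent.Jac.FiniteToLine86.Valuative

section key

variable {k : Type u} [Field k] {C : Scheme.{u}} (c : C ⟶ Spec (.of k))
  (U : C.Opens) (t : Γ(C, U))

variable {R K : Type u} [CommRing R] [IsDomain R] [ValuationRing R] [Field K] [Algebra R K]
  (l : Spec (.of R) ⟶ C) (i₁ : Spec (.of K) ⟶ U.toScheme)
  (h₁ : Spec.map (CommRingCat.ofHom (algebraMap R K)) ≫ l = i₁ ≫ U.ι)

set_option backward.isDefEq.respectTransparency.types false in
include h₁ in
lemma i₁_specializes : (i₁ ≫ U.ι) (closedPoint K) ⤳ l (closedPoint R) := by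
  rw [← h₁, Scheme.Hom.comp_apply]
  exact (specializes_closedPoint _).map l.continuous

set_option backward.isDefEq.respectTransparency.types false in
omit [CommRing R] [IsDomain R] [ValuationRing R] [Algebra R K] in
lemma i₁_mem : (i₁ ≫ U.ι) (closedPoint K) ∈ U := by
  rw [Scheme.Hom.comp_apply]
  exact (i₁ (closedPoint K)).2

/-- Fact A: compatibility of the two stalk maps. -/
lemma stalk_compat :
    C.presheaf.stalkSpecializes (i₁_specializes U l i₁ h₁) ≫
        Scheme.stalkClosedPointTo (i₁ ≫ U.ι) =
      Scheme.stalkClosedPointTo l ≫ CommRingCat.ofHom (algebraMap R K) := by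
  apply Spec.map_injective
  rw [← cancel_mono (C.fromSpecStalk (l (closedPoint R)))]
  rw [Spec.map_comp, Category.assoc, Scheme.SpecMap_stalkSpecializes_fromSpecStalk,
    Scheme.Spec_stalkClosedPointTo_fromSpecStalk, Spec.map_comp, Category.assoc,
    Scheme.Spec_stalkClosedPointTo_fromSpecStalk, h₁]

omit [CommRing R] [IsDomain R] [ValuationRing R] [Algebra R K] in
/-- `i₁` factors through the spectrum of the local ring at its image point. -/
lemma i₁_eq :
    i₁ = Spec.map (Scheme.stalkClosedPointTo (i₁ ≫ U.ι)) ≫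
      U.fromSpecStalkOfMem _ (i₁_mem U i₁) := by
  rw [← cancel_mono U.ι, Category.assoc, Scheme.Opens.fromSpecStalkOfMem_ι,
    Scheme.Spec_stalkClosedPointTo_fromSpecStalk]

variable (ρ₂ : CommRingCat.of k[X] ⟶ CommRingCat.of R)
  (h₂ : i₁ ≫ lineMap c U t = Spec.map (CommRingCat.ofHom (algebraMap R K)) ≫ Spec.map ρ₂)

omit [IsDomain R] [ValuationRing R] in
include h₂ in
/-- Fact B: the value of `t` at the `K`-point `i₁` comes from `R`. -/
lemma value_compat :
    CommRingCat.ofHom (evalHom c U t) ≫ C.presheaf.germ U _ (i₁_mem U i₁) ≫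
        Scheme.stalkClosedPointTo (i₁ ≫ U.ι) =
      ρ₂ ≫ CommRingCat.ofHom (algebraMap R K) := by
  apply Spec.map_injective
  rw [Spec.map_comp, Spec.map_comp, Spec.map_comp, ← h₂]
  conv_rhs => rw [i₁_eq U i₁]
  rw [lineMap, Category.assoc, Category.assoc, Scheme.Opens.fromSpecStalkOfMem_toSpecΓ_assoc]

end key

variable {k : Type u} [Field k] {C : Scheme.{u}} (c : C ⟶ Spec (.of k)) [IsIntegral C]
  (U : C.Opens) [Nonempty U] (t : Γ(C, U))

/-- `U` is the full domain of definition of the rational function defined by `t ∈ Γ(C, U)`: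
every point at which the germ of `t` (an element of the function field) lies in the local ring
belongs to `U`. -/
def IsMaxDomain : Prop :=
  ∀ x : C, (∃ a : C.presheaf.stalk x,
    algebraMap (C.presheaf.stalk x) C.functionField a = C.germToFunctionField U t) → x ∈ U

/-- compatibility of the maps to the function field with specialization -/
lemma algebraMap_stalkSpecializes {x y : C} (h : y ⤳ x) (b : C.presheaf.stalk x) :
    algebraMap (C.presheaf.stalk y) C.functionField (C.presheaf.stalkSpecializes h b) =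
      algebraMap (C.presheaf.stalk x) C.functionField b := by
  simp only [RingHom.algebraMap_toAlgebra]
  rw [← CommRingCat.comp_apply, TopCat.Presheaf.stalkSpecializes_comp]

section mem

variable {R K : Type u} [CommRing R] [IsDomain R] [ValuationRing R] [Field K] [Algebra R K]
  [IsFractionRing R K]
  (l : Spec (.of R) ⟶ C) (i₁ : Spec (.of K) ⟶ U.toScheme)
  (h₁ : Spec.map (CommRingCat.ofHom (algebraMap R K)) ≫ l = i₁ ≫ U.ι)
  (ρ₂ : CommRingCat.of k[X] ⟶ CommRingCat.of R)
  (h₂ : i₁ ≫ lineMap c U t = Spec.map (CommRingCat.ofHom (algebraMap R K)) ≫ Spec.map ρ₂)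

include h₁ h₂ in
/-- Fact C: the closed point of `Spec R` lands in `U`. -/
lemma closedPoint_mem (hV : ValuationRing (C.presheaf.stalk (l (closedPoint R))))
    (hmax : IsMaxDomain U t) : l (closedPoint R) ∈ U := by
  by_contra hx
  set x := l (closedPoint R) with hxdef
  set f := C.germToFunctionField U t with hf
  have hnot : ¬ ∃ a : C.presheaf.stalk x,
      algebraMap (C.presheaf.stalk x) C.functionField a = f := fun h => hx (hmax x h)
  obtain ⟨b, hb⟩ : ∃ b : C.presheaf.stalk x,
      algebraMap (C.presheaf.stalk x) C.functionField b = f⁻¹ := by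
    rcases ValuationRing.isInteger_or_isInteger (C.presheaf.stalk x) f with h | h
    · exact absurd h hnot
    · exact h
  have hf0 : f ≠ 0 := fun h0 => hnot ⟨0, by rw [map_zero, h0]⟩
  have hsp := i₁_specializes U l i₁ h₁
  have hy := i₁_mem U i₁
  -- in the stalk at `y`: `germ t * sp b = 1`
  have h1 : C.presheaf.germ U _ hy t * C.presheaf.stalkSpecializes hsp b = 1 := by
    apply IsFractionRing.injective (C.presheaf.stalk _) C.functionField
    rw [map_mul, map_one, algebraMap_stalkSpecializes, hb,
      Scheme.algebraMap_germ_eq_germToFunctionField]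
    exact mul_inv_cancel₀ hf0
  -- apply `θ`
  have h2 := congrArg (Scheme.stalkClosedPointTo (i₁ ≫ U.ι)).hom h1
  rw [map_mul, map_one] at h2
  have hA := stalk_compat U l i₁ h₁
  have hB := value_compat c U t i₁ ρ₂ h₂
  have hA' : (Scheme.stalkClosedPointTo (i₁ ≫ U.ι)).hom (C.presheaf.stalkSpecializes hsp b) =
      algebraMap R K ((Scheme.stalkClosedPointTo l).hom b) := by
    exact congrArg (fun φ => φ.hom b) hA
  have hB' : (Scheme.stalkClosedPointTo (i₁ ≫ U.ι)).hom (C.presheaf.germ U _ hy t) =
      algebraMap R K (ρ₂.hom X) := by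
    have h := congrArg (fun φ => φ.hom X) hB
    have e : (CommRingCat.ofHom (evalHom c U t) ≫ C.presheaf.germ U _ hy ≫
        Scheme.stalkClosedPointTo (i₁ ≫ U.ι)).hom X =
        (Scheme.stalkClosedPointTo (i₁ ≫ U.ι)).hom
          (C.presheaf.germ U _ hy (evalHom c U t X)) := rfl
    rw [evalHom_X] at e
    exact e.symm.trans h
  rw [hA', hB', ← map_mul] at h2
  have h3 : ρ₂.hom X * (Scheme.stalkClosedPointTo l).hom b = 1 :=
    IsFractionRing.injective R K (by rw [h2, map_one])
  have hu : IsUnit ((Scheme.stalkClosedPointTo l).hom b) := IsUnit.of_mul_eq_one_right _ h3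
  have hub : IsUnit b := (isUnit_map_iff (Scheme.stalkClosedPointTo l).hom b).mp hu
  obtain ⟨v, rfl⟩ := hub
  apply hnot
  refine ⟨(v⁻¹ : (C.presheaf.stalk x)ˣ), ?_⟩
  rw [← inv_inj, ← hb, ← map_units_inv, inv_inv]

end mem

/-- Unbundled form of the existence part of the valuative criterion. -/
lemma exists_lift_of_existence {X Y : Scheme.{u}} (f : X ⟶ Y)
    (hf : ValuativeCriterion.Existence f) {R K : Type u} [CommRing R] [IsDomain R]
    [ValuationRing R] [Field K] [Algebra R K] [IsFractionRing R K]
    (i₁ : Spec (.of K) ⟶ X) (i₂ : Spec (.of R) ⟶ Y)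
    (w : i₁ ≫ f = Spec.map (CommRingCat.ofHom (algebraMap R K)) ≫ i₂) :
    ∃ l : Spec (.of R) ⟶ X,
      Spec.map (CommRingCat.ofHom (algebraMap R K)) ≫ l = i₁ ∧ l ≫ f = i₂ := by
  obtain ⟨l, h1, h2⟩ :=
    (hf { R := R, K := K, i₁ := i₁, i₂ := i₂, commSq := ⟨w⟩ }).exists_lift
  exact ⟨l, h1, h2⟩

/-- **Existence part of the valuative criterion** for `lineMap c U t : U ⟶ Spec k[X]`. -/
theorem lineMap_existence [UniversallyClosed c]
    (hV : ∀ x : C, ValuationRing (C.presheaf.stalk x)) (hmax : IsMaxDomain U t) :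
    ValuativeCriterion.Existence (lineMap c U t) := by
  intro S
  have hc : ValuativeCriterion.Existence c := by
    have h := ‹UniversallyClosed c›
    rw [UniversallyClosed.eq_valuativeCriterion] at h
    exact h.1
  obtain ⟨ρ₂, hρ₂⟩ := Spec.map_surjective S.i₂
  have hw : (S.i₁ ≫ U.ι) ≫ c = Spec.map (CommRingCat.ofHom (algebraMap S.R S.K)) ≫
      (S.i₂ ≫ Spec.map (CommRingCat.ofHom (Polynomial.C : k →+* k[X]))) := by
    rw [Category.assoc, ← lineMap_comp c U t, S.commSq.w_assoc]
  obtain ⟨l, hl₁, -⟩ := exists_lift_of_existence c hc (S.i₁ ≫ U.ι)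
    (S.i₂ ≫ Spec.map (CommRingCat.ofHom (Polynomial.C : k →+* k[X]))) hw
  have h₂ : S.i₁ ≫ lineMap c U t =
      Spec.map (CommRingCat.ofHom (algebraMap S.R S.K)) ≫ Spec.map ρ₂ := by
    rw [hρ₂]; exact S.commSq.w
  have hx := closedPoint_mem c U t l S.i₁ hl₁ ρ₂ h₂ (hV _) hmax
  refine ⟨⟨{ l := Spec.map (Scheme.stalkClosedPointTo l) ≫ U.fromSpecStalkOfMem _ hx,
             fac_left := ?_, fac_right := ?_ }⟩⟩
  · rw [← cancel_mono U.ι, Category.assoc, Category.assoc, Scheme.Opens.fromSpecStalkOfMem_ι,
      Scheme.Spec_stalkClosedPointTo_fromSpecStalk, hl₁]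
  · rw [← hρ₂]
    unfold lineMap
    rw [Category.assoc, Scheme.Opens.fromSpecStalkOfMem_toSpecΓ_assoc,
      ← Spec.map_comp, ← Spec.map_comp]
    congr 1
    -- `ev ≫ germ_x ≫ ψ = ρ₂`, checked after composing with the injection `R → K`
    refine CommRingCat.hom_ext (RingHom.ext fun p => ?_)
    apply IsFractionRing.injective S.R S.K
    have hA := stalk_compat U l S.i₁ hl₁
    have hB := value_compat c U t S.i₁ ρ₂ h₂
    have h3 := congrArg (fun φ => φ.hom p) hB
    have h4 : C.presheaf.germ U _ hx ≫ C.presheaf.stalkSpecializes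
        (i₁_specializes U l S.i₁ hl₁) = C.presheaf.germ U _ (i₁_mem U S.i₁) :=
      TopCat.Presheaf.germ_stalkSpecializes _ _ _
    rw [← h4, Category.assoc, hA] at h3
    exact h3

/-- `lineMap c U t : U ⟶ Spec k[X]` is proper when `c` is proper, all local rings of `C` are
valuation rings and `U` is the full domain of definition of `t`. -/
theorem lineMap_isProper [IsProper c]
    (hV : ∀ x : C, ValuationRing (C.presheaf.stalk x)) (hmax : IsMaxDomain U t) :
    IsProper (lineMap c U t) := by
  have := lineMap_quasiCompact c U t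
  have := lineMap_isSeparated c U t
  have := lineMap_locallyOfFiniteType c U t
  have : UniversallyClosed (lineMap c U t) :=
    UniversallyClosed.of_valuativeCriterion _ (lineMap_existence c U t hV hmax)
  exact { }

end Fermat.Agent.Jac.FiniteToLine86.Valuative
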